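import Mathlib

/-!
# Abstract free-module lemma for graded modules over `𝕜[x, y]` (P-DIM, framework piece F-ALG)

`A` is a commutative `𝕜`-algebra (in the application: functions `ℍ → ℂ`), `R m` and `M k` are
families of `𝕜`-subspaces of `A` indexed by the weight (in the application: level one forms and
forms on `Γ`), `x y : A` (in the application: `E₄`, `E₆`).  Assuming that `R` is generated by
`x, y` in the graded sense and that `x, y` is a regular sequence on `M`, we construct
homogeneous generators `gen j ∈ M (wt j)` such that every element of `M K` is *uniquely*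
`∑ j, r j * gen j` with `r j ∈ R (K - wt j)`.
-/

set_option autoImplicit false

open Submodule

namespace Fermat.Agent.H80

variable {𝕜 : Type*} {A : Type*} [Field 𝕜] [CommRing A] [Algebra 𝕜 A]

/-- The hypotheses of the abstract free-module lemma. -/
structure GradedRegular (R M : ℤ → Submodule 𝕜 A) (x y : A) : Prop where
  R_neg : ∀ m : ℤ, m < 0 → ∀ r ∈ R m, r = 0
  R_zero : ∀ r ∈ R 0, ∃ c : 𝕜, r = algebraMap 𝕜 A c
  one_mem : (1 : A) ∈ R 0
  R_pos : ∀ m : ℤ, 0 < m → ∀ r ∈ R m, ∃ a ∈ R (m - 4), ∃ b ∈ R (m - 6), r = x * a + y * b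
  x_mul_R : ∀ m : ℤ, ∀ r ∈ R m, x * r ∈ R (m + 4)
  y_mul_R : ∀ m : ℤ, ∀ r ∈ R m, y * r ∈ R (m + 6)
  R_mul_M : ∀ m k : ℤ, ∀ r ∈ R m, ∀ f ∈ M k, r * f ∈ M (m + k)
  M_neg : ∀ k : ℤ, k < 0 → ∀ f ∈ M k, f = 0
  x_reg : ∀ k : ℤ, ∀ f ∈ M k, x * f = 0 → f = 0
  y_reg : ∀ k : ℤ, ∀ f ∈ M k, ∀ g ∈ M (k + 2), y * f = x * g → ∃ h ∈ M (k - 4), f = x * h

section Defs

variable (R M : ℤ → Submodule 𝕜 A) (x y : A)

/-- The decomposable part `x * M (K - 4) + y * M (K - 6)` of weight `K`. -/
def decomposable (K : ℤ) : Submodule 𝕜 A :=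
  (M (K - 4)).map (LinearMap.mulLeft 𝕜 x) ⊔ (M (K - 6)).map (LinearMap.mulLeft 𝕜 y)

theorem mem_decomposable_iff {K : ℤ} {F : A} :
    F ∈ decomposable M x y K ↔ ∃ a ∈ M (K - 4), ∃ b ∈ M (K - 6), F = x * a + y * b := by
  simp only [decomposable, Submodule.mem_sup, Submodule.mem_map, LinearMap.mulLeft_apply]
  constructor
  · rintro ⟨_, ⟨a, ha, rfl⟩, _, ⟨b, hb, rfl⟩, rfl⟩
    exact ⟨a, ha, b, hb, rfl⟩
  · rintro ⟨a, ha, b, hb, rfl⟩
    exact ⟨_, ⟨a, ha, rfl⟩, _, ⟨b, hb, rfl⟩, rfl⟩

/-- A chosen complement of the decomposable part inside `M K`, as a subspace of `M K`. -/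
noncomputable def complSub (K : ℤ) : Submodule 𝕜 (M K) :=
  (Submodule.exists_isCompl ((decomposable M x y K).comap (M K).subtype)).choose

theorem complSub_isCompl (K : ℤ) :
    IsCompl ((decomposable M x y K).comap (M K).subtype) (complSub M x y K) :=
  (Submodule.exists_isCompl ((decomposable M x y K).comap (M K).subtype)).choose_spec

/-- The index type of the generators: pairs of a weight `K` and a basis vector of the chosen
complement in weight `K`. -/
abbrev GenIndex : Type _ :=
  Σ K : ℤ, Module.Basis.ofVectorSpaceIndex 𝕜 (complSub M x y K)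

/-- The weight of a generator. -/
def genWt (j : GenIndex M x y) : ℤ := j.1

/-- The generator attached to an index. -/
def gen (j : GenIndex M x y) : A := ((j.2 : complSub M x y j.1) : M j.1)

/-- Coefficient families of weight `K`: finitely supported families `r` with
`r j ∈ R (K - wt j)`. -/
def Coef (K : ℤ) : Submodule 𝕜 (GenIndex M x y →₀ A) where
  carrier := {r | ∀ j, r j ∈ R (K - genWt M x y j)}
  add_mem' := fun {r s} hr hs j => by
    rw [Finsupp.add_apply]; exact add_mem (hr j) (hs j)
  zero_mem' := fun j => by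
    rw [Finsupp.zero_apply]; exact zero_mem _
  smul_mem' := fun c r hr j => by
    rw [Finsupp.smul_apply]; exact Submodule.smul_mem _ c (hr j)

theorem mem_Coef {K : ℤ} {r : GenIndex M x y →₀ A} :
    r ∈ Coef R M x y K ↔ ∀ j, r j ∈ R (K - genWt M x y j) := Iff.rfl

/-- The combination map `r ↦ ∑ j, r j * gen j`. -/
noncomputable def comb : (GenIndex M x y →₀ A) →ₗ[A] A :=
  Finsupp.linearCombination A (gen M x y)

theorem comb_apply (r : GenIndex M x y →₀ A) :
    comb M x y r = r.sum fun j a => a * gen M x y j := by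
  simp [comb, Finsupp.linearCombination_apply, smul_eq_mul]

end Defs

section Main

variable {R M : ℤ → Submodule 𝕜 A} {x y : A}

theorem mem_of_eq_wt {V : Type*} [AddCommMonoid V] [Module 𝕜 V] {N : ℤ → Submodule 𝕜 V}
    {m m' : ℤ} (h : m = m') {a : V} (ha : a ∈ N m) : a ∈ N m' := h ▸ ha

namespace GradedRegular

variable (h : GradedRegular R M x y)
include h

theorem x_mem : x ∈ R 4 := by
  have := h.x_mul_R 0 1 h.one_mem
  simpa using this

theorem y_mem : y ∈ R 6 := by
  have := h.y_mul_R 0 1 h.one_mem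
  simpa using this

theorem algebraMap_mem (c : 𝕜) : algebraMap 𝕜 A c ∈ R 0 := by
  rw [Algebra.algebraMap_eq_smul_one]
  exact Submodule.smul_mem _ c h.one_mem

theorem x_mul_M {k : ℤ} {f : A} (hf : f ∈ M k) : x * f ∈ M (k + 4) :=
  mem_of_eq_wt (add_comm 4 k) (h.R_mul_M 4 k x h.x_mem f hf)

theorem y_mul_M {k : ℤ} {f : A} (hf : f ∈ M k) : y * f ∈ M (k + 6) :=
  mem_of_eq_wt (add_comm 6 k) (h.R_mul_M 6 k y h.y_mem f hf)

theorem decomposable_le (K : ℤ) : decomposable M x y K ≤ M K := by
  intro F hF
  obtain ⟨a, ha, b, hb, rfl⟩ := (mem_decomposable_iff M x y).mp hF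
  exact add_mem (mem_of_eq_wt (by ring) (h.x_mul_M ha)) (mem_of_eq_wt (by ring) (h.y_mul_M hb))

omit h in
theorem gen_mem (j : GenIndex M x y) : gen M x y j ∈ M (genWt M x y j) :=
  ((j.2 : complSub M x y j.1) : M j.1).2

theorem genWt_nonneg (j : GenIndex M x y) : 0 ≤ genWt M x y j := by
  by_contra hneg
  have hneg := not_le.mp hneg
  obtain ⟨K, b⟩ := j
  change K < 0 at hneg
  have hb0 : (Module.Basis.ofVectorSpace 𝕜 (complSub M x y K)) b ≠ 0 :=
    (Module.Basis.ofVectorSpace 𝕜 (complSub M x y K)).ne_zero b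
  apply hb0
  apply Subtype.ext
  apply Subtype.ext
  exact h.M_neg K hneg _ (((Module.Basis.ofVectorSpace 𝕜 (complSub M x y K)) b : complSub M x y K) : M K).2

/-- `comb` maps coefficient families of weight `K` into `M K`. -/
theorem comb_mem {K : ℤ} {r : GenIndex M x y →₀ A} (hr : r ∈ Coef R M x y K) :
    comb M x y r ∈ M K := by
  rw [comb_apply]
  refine Submodule.sum_mem _ fun j _ => ?_
  exact mem_of_eq_wt (by ring) (h.R_mul_M _ _ _ (hr j) _ (gen_mem j))

theorem smul_x_mem_Coef {K : ℤ} {r : GenIndex M x y →₀ A} (hr : r ∈ Coef R M x y K) :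
    x • r ∈ Coef R M x y (K + 4) := fun j => by
  rw [Finsupp.smul_apply, smul_eq_mul]
  exact mem_of_eq_wt (by ring) (h.x_mul_R _ _ (hr j))

theorem smul_y_mem_Coef {K : ℤ} {r : GenIndex M x y →₀ A} (hr : r ∈ Coef R M x y K) :
    y • r ∈ Coef R M x y (K + 6) := fun j => by
  rw [Finsupp.smul_apply, smul_eq_mul]
  exact mem_of_eq_wt (by ring) (h.y_mul_R _ _ (hr j))

end GradedRegular

end Main

section Generation

variable {R M : ℤ → Submodule 𝕜 A} {x y : A}

variable (R M x y) in
/-- The `𝕜`-span of all combinations `∑ j, r j * gen j` with `r` a coefficient family of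
weight `K`. -/
noncomputable def genSpan (K : ℤ) : Submodule 𝕜 A :=
  (Coef R M x y K).map ((comb M x y).restrictScalars 𝕜)

theorem mem_genSpan {K : ℤ} {F : A} :
    F ∈ genSpan R M x y K ↔ ∃ r ∈ Coef R M x y K, comb M x y r = F := by
  simp [genSpan]

namespace GradedRegular

variable (h : GradedRegular R M x y)
include h

theorem single_one_mem_Coef (j : GenIndex M x y) :
    Finsupp.single j (1 : A) ∈ Coef R M x y (genWt M x y j) := fun j' => by
  classical
  rw [Finsupp.single_apply]
  split_ifs with hj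
  · subst hj
    exact mem_of_eq_wt (by ring) h.one_mem
  · exact zero_mem _

theorem gen_mem_genSpan (j : GenIndex M x y) : gen M x y j ∈ genSpan R M x y (genWt M x y j) :=
  mem_genSpan.mpr ⟨Finsupp.single j 1, h.single_one_mem_Coef j, by simp [comb]⟩

theorem generation_aux : ∀ n : ℕ, ∀ K : ℤ, K < n → M K ≤ genSpan R M x y K := by
  intro n
  induction n with
  | zero =>
    intro K hK F hF
    have hF0 := h.M_neg K (by simpa using hK) F hF
    rw [hF0]
    exact zero_mem _
  | succ n ih =>
    intro K hK F hF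
    have hc := complSub_isCompl M x y K
    have htop : (⟨F, hF⟩ : M K) ∈ (⊤ : Submodule 𝕜 (M K)) := Submodule.mem_top
    rw [← hc.sup_eq_top] at htop
    obtain ⟨p, hp, q, hq, hpq⟩ := Submodule.mem_sup.mp htop
    have hF' : F = (p : A) + (q : A) := by
      have := congrArg Subtype.val hpq
      simpa using this.symm
    rw [hF']
    refine add_mem ?_ ?_
    · have hp' : (p : A) ∈ decomposable M x y K := hp
      obtain ⟨a, ha, b, hb, hpab⟩ := (mem_decomposable_iff M x y).mp hp'
      rw [hpab]
      have hK' : K < (n : ℤ) + 1 := by exact_mod_cast hK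
      obtain ⟨ra, hra, rfl⟩ := mem_genSpan.mp (ih (K - 4) (by omega) ha)
      obtain ⟨rb, hrb, rfl⟩ := mem_genSpan.mp (ih (K - 6) (by omega) hb)
      refine add_mem (mem_genSpan.mpr ⟨x • ra, ?_, by simp⟩)
        (mem_genSpan.mpr ⟨y • rb, ?_, by simp⟩)
      · have := h.smul_x_mem_Coef hra
        rwa [show K - 4 + 4 = K by ring] at this
      · have := h.smul_y_mem_Coef hrb
        rwa [show K - 6 + 6 = K by ring] at this
    · have hspan := (Module.Basis.ofVectorSpace 𝕜 (complSub M x y K)).mem_span ⟨q, hq⟩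
      have key : ∀ v : complSub M x y K,
          v ∈ Submodule.span 𝕜 (Set.range (Module.Basis.ofVectorSpace 𝕜 (complSub M x y K))) →
          ((v : M K) : A) ∈ genSpan R M x y K := by
        intro v hv
        induction hv using Submodule.span_induction with
        | mem v hv =>
          obtain ⟨b, rfl⟩ := hv
          rw [Module.Basis.ofVectorSpace_apply_self]
          exact h.gen_mem_genSpan ⟨K, b⟩
        | zero => simp
        | add u v _ _ hu hv =>
          simpa using add_mem hu hv
        | smul c v _ hv =>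
          simpa using Submodule.smul_mem _ c hv
      exact key ⟨q, hq⟩ hspan

/-- **Generation.** Every element of `M K` is a combination `∑ j, r j * gen j` with
`r j ∈ R (K - wt j)`. -/
theorem generation (K : ℤ) {F : A} (hF : F ∈ M K) :
    ∃ r ∈ Coef R M x y K, comb M x y r = F := by
  have hlt : K < ((K.toNat + 1 : ℕ) : ℤ) := by
    have := Int.self_le_toNat K
    push_cast
    omega
  exact mem_genSpan.mp (h.generation_aux (K.toNat + 1) K hlt hF)

end GradedRegular

end Generation

section Uniqueness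

variable {R M : ℤ → Submodule 𝕜 A} {x y : A}

variable (M x y) in
/-- Scalar families on the chosen weight-`K` basis, viewed as coefficient families. -/
noncomputable def topEmb (K : ℤ) :
    (Module.Basis.ofVectorSpaceIndex 𝕜 (complSub M x y K) →₀ 𝕜) →ₗ[𝕜] (GenIndex M x y →₀ A) :=
  (Finsupp.lmapDomain A 𝕜 (Sigma.mk K : _ → GenIndex M x y)).comp
    (Finsupp.mapRange.linearMap (Algebra.linearMap 𝕜 A))

theorem topEmb_single (K : ℤ) (b : Module.Basis.ofVectorSpaceIndex 𝕜 (complSub M x y K)) (c : 𝕜) :
    topEmb M x y K (Finsupp.single b c) = Finsupp.single ⟨K, b⟩ (algebraMap 𝕜 A c) := by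
  simp only [topEmb, LinearMap.comp_apply, Finsupp.mapRange.linearMap_apply,
    Finsupp.mapRange_single, Finsupp.lmapDomain_apply, Finsupp.mapDomain_single,
    Algebra.linearMap_apply]

/-- The element of the chosen complement attached to a scalar family. -/
noncomputable def topVec (K : ℤ)
    (c : Module.Basis.ofVectorSpaceIndex 𝕜 (complSub M x y K) →₀ 𝕜) : complSub M x y K :=
  (Module.Basis.ofVectorSpace 𝕜 (complSub M x y K)).repr.symm c

theorem comb_topEmb (K : ℤ) (c : Module.Basis.ofVectorSpaceIndex 𝕜 (complSub M x y K) →₀ 𝕜) :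
    comb M x y (topEmb M x y K c) = ((topVec K c : M K) : A) := by
  induction c using Finsupp.induction_linear with
  | zero => simp [topVec]
  | add c d hc hd =>
    simp only [map_add, hc, hd, topVec]
    rfl
  | single b c =>
    rw [topEmb_single]
    simp only [comb, Finsupp.linearCombination_single, topVec,
      Module.Basis.repr_symm_single, Module.Basis.ofVectorSpace_apply_self, algebraMap_smul]
    rfl

namespace GradedRegular

variable (h : GradedRegular R M x y)
include h

omit h in
theorem single_mem_Coef {K : ℤ} (j : GenIndex M x y) {v : A} (hv : v ∈ R (K - genWt M x y j)) :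
    Finsupp.single j v ∈ Coef R M x y K := fun j' => by
  classical
  rw [Finsupp.single_apply]
  split_ifs with hj
  · subst hj
    exact hv
  · exact zero_mem _

omit h in
theorem topEmb_mem_Coef_aux (h : GradedRegular R M x y) (K : ℤ)
    (c : Module.Basis.ofVectorSpaceIndex 𝕜 (complSub M x y K) →₀ 𝕜) :
    topEmb M x y K c ∈ Coef R M x y K := by
  induction c using Finsupp.induction_linear with
  | zero => simp
  | add c d hc hd =>
    rw [map_add]; exact add_mem hc hd
  | single b c =>
    rw [topEmb_single]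
    refine single_mem_Coef _ ?_
    exact mem_of_eq_wt (show (0 : ℤ) = K - K by ring) (h.algebraMap_mem c)

/-- Every coefficient family of weight `K` splits into a scalar combination of the weight-`K`
generators and a decomposable part. -/
theorem exists_decomp (K : ℤ) (r : GenIndex M x y →₀ A) (hr : r ∈ Coef R M x y K) :
    ∃ c : Module.Basis.ofVectorSpaceIndex 𝕜 (complSub M x y K) →₀ 𝕜,
      ∃ a ∈ Coef R M x y (K - 4), ∃ b ∈ Coef R M x y (K - 6),
        r = topEmb M x y K c + x • a + y • b := by
  classical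
  induction r using Finsupp.induction with
  | zero => exact ⟨0, 0, zero_mem _, 0, zero_mem _, by simp⟩
  | single_add j v f hjf hv ih =>
    have hfj : f j = 0 := Finsupp.notMem_support_iff.mp hjf
    have hf : f ∈ Coef R M x y K := by
      intro j'
      have := hr j'
      rw [Finsupp.add_apply, Finsupp.single_apply] at this
      split_ifs at this with hj
      · subst hj
        rw [hfj]; exact zero_mem _
      · simpa using this
    have hvmem : v ∈ R (K - genWt M x y j) := by
      have := hr j
      rwa [Finsupp.add_apply, Finsupp.single_eq_same, hfj, add_zero] at this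
    obtain ⟨c, a, ha, b, hb, hfeq⟩ := ih hf
    rcases lt_trichotomy (genWt M x y j) K with hlt | heq | hgt
    · obtain ⟨a₀, ha₀, b₀, hb₀, hvab⟩ := h.R_pos (K - genWt M x y j) (by omega) v hvmem
      refine ⟨c, Finsupp.single j a₀ + a, add_mem (single_mem_Coef j ?_) ha,
        Finsupp.single j b₀ + b, add_mem (single_mem_Coef j ?_) hb, ?_⟩
      · exact mem_of_eq_wt (by ring) ha₀
      · exact mem_of_eq_wt (by ring) hb₀
      · rw [hfeq, hvab]
        simp only [smul_add, Finsupp.smul_single, smul_eq_mul, Finsupp.single_add]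
        abel
    · obtain ⟨K', b'⟩ := j
      change K' = K at heq
      subst heq
      have hv0 : v ∈ R 0 := mem_of_eq_wt (show K' - K' = (0 : ℤ) by ring) hvmem
      obtain ⟨c₀, rfl⟩ := h.R_zero v hv0
      refine ⟨Finsupp.single b' c₀ + c, a, ha, b, hb, ?_⟩
      rw [hfeq, map_add, topEmb_single]
      abel
    · have hv0 : v = 0 := h.R_neg _ (by omega) v hvmem
      exact absurd hv0 hv

theorem uniqueness_aux : ∀ n : ℕ, ∀ K : ℤ, K < n → ∀ r ∈ Coef R M x y K,
    comb M x y r = 0 → r = 0 := by
  intro n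
  induction n with
  | zero =>
    intro K hK r hr _
    ext j
    have hK' : K < 0 := by simpa using hK
    have := h.genWt_nonneg j
    exact h.R_neg _ (by omega) _ (hr j)
  | succ n ih =>
    intro K hK r hr hr0
    have hK' : K < (n : ℤ) + 1 := by exact_mod_cast hK
    obtain ⟨c, a, ha, b, hb, rfl⟩ := h.exists_decomp K r hr
    have hα : comb M x y a ∈ M (K - 4) := h.comb_mem ha
    have hβ : comb M x y b ∈ M (K - 6) := h.comb_mem hb
    have hsum : ((topVec K c : M K) : A) + (x * comb M x y a + y * comb M x y b) = 0 := by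
      have := hr0
      simp only [map_add, map_smul, smul_eq_mul, comb_topEmb] at this
      rw [← this]; ring
    -- the complement part vanishes
    have hd : x * comb M x y a + y * comb M x y b ∈ decomposable M x y K :=
      (mem_decomposable_iff M x y).mpr ⟨_, hα, _, hβ, rfl⟩
    have htop : ((topVec K c : M K) : A) ∈ decomposable M x y K := by
      have : ((topVec K c : M K) : A) = -(x * comb M x y a + y * comb M x y b) :=
        eq_neg_of_add_eq_zero_left hsum
      rw [this]
      exact neg_mem hd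
    have hdisj := (complSub_isCompl M x y K).disjoint
    have hv0 : (topVec K c : M K) = 0 := by
      have hmem : (topVec K c : M K) ∈
          (decomposable M x y K).comap (M K).subtype ⊓ complSub M x y K :=
        ⟨htop, (topVec K c).2⟩
      rw [hdisj.eq_bot] at hmem
      exact (Submodule.mem_bot 𝕜).mp hmem
    have hc0 : c = 0 := by
      have h1 : topVec K c = 0 := Subtype.ext hv0
      exact (LinearEquiv.map_eq_zero_iff
        (Module.Basis.ofVectorSpace 𝕜 (complSub M x y K)).repr.symm).mp h1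
    subst hc0
    have hd0 : x * comb M x y a + y * comb M x y b = 0 := by
      have := hsum
      rw [hv0] at this
      simpa using this
    -- regular sequence argument
    have hyreg : y * (-comb M x y b) = x * comb M x y a := by
      linear_combination -hd0
    obtain ⟨h₀, hh₀, hβh⟩ := h.y_reg (K - 6) (-comb M x y b) (neg_mem hβ) (comb M x y a)
      (mem_of_eq_wt (by ring) hα) hyreg
    have hh₀' : h₀ ∈ M (K - 10) := mem_of_eq_wt (by ring) hh₀
    have hyh : y * h₀ ∈ M (K - 4) := mem_of_eq_wt (by ring) (h.y_mul_M hh₀')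
    have hαh : comb M x y a = y * h₀ := by
      have hx0 : x * (comb M x y a - y * h₀) = 0 := by
        have : comb M x y b = -(x * h₀) := by rw [← hβh]; ring
        rw [this] at hd0
        linear_combination hd0
      have := h.x_reg (K - 4) _ (sub_mem hα hyh) hx0
      exact sub_eq_zero.mp this
    obtain ⟨c', hc', rfl⟩ := h.generation (K - 10) hh₀'
    have hyc' : y • c' ∈ Coef R M x y (K - 4) :=
      mem_of_eq_wt (N := Coef R M x y) (show K - 10 + 6 = K - 4 by ring) (h.smul_y_mem_Coef hc')
    have hxc' : x • c' ∈ Coef R M x y (K - 6) :=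
      mem_of_eq_wt (N := Coef R M x y) (show K - 10 + 4 = K - 6 by ring) (h.smul_x_mem_Coef hc')
    have ha_eq : a - y • c' = 0 := by
      refine ih (K - 4) (by omega) _ (sub_mem ha hyc') ?_
      rw [map_sub, map_smul, smul_eq_mul, hαh, sub_self]
    have hb_eq : b + x • c' = 0 := by
      refine ih (K - 6) (by omega) _ (add_mem hb hxc') ?_
      rw [map_add, map_smul, smul_eq_mul]
      have : comb M x y b = -(x * comb M x y c') := by rw [← hβh]; ring
      rw [this]; ring
    have ha' : a = y • c' := sub_eq_zero.mp ha_eq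
    have hb' : b = -(x • c') := eq_neg_of_add_eq_zero_left hb_eq
    rw [ha', hb', map_zero, zero_add, smul_neg, smul_smul, smul_smul, mul_comm x y]
    exact add_neg_cancel _

/-- **Uniqueness.** A combination `∑ j, r j * gen j` with `r j ∈ R (K - wt j)` vanishes only if
all coefficients vanish. -/
theorem uniqueness (K : ℤ) {r : GenIndex M x y →₀ A} (hr : r ∈ Coef R M x y K)
    (hr0 : comb M x y r = 0) : r = 0 := by
  have hlt : K < ((K.toNat + 1 : ℕ) : ℤ) := by
    have := Int.self_le_toNat K
    push_cast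
    omega
  exact h.uniqueness_aux (K.toNat + 1) K hlt r hr hr0

/-- Uniqueness in the form: two coefficient families of the same weight with the same combination
are equal. -/
theorem comb_injOn (K : ℤ) {r s : GenIndex M x y →₀ A} (hr : r ∈ Coef R M x y K)
    (hs : s ∈ Coef R M x y K) (hrs : comb M x y r = comb M x y s) : r = s := by
  have := h.uniqueness K (sub_mem hr hs) (by rw [map_sub, hrs, sub_self])
  exact sub_eq_zero.mp this

end GradedRegular

end Uniqueness

section Packaged

/-- **DIM-10: abstract free generators.**  Exactly the statement requested by the P-DIM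
framework. -/
theorem exists_free_generators {A : Type} [CommRing A] [Algebra ℂ A]
    (M R : ℤ → Submodule ℂ A) (e4 e6 : A)
    (hR0 : ∀ r ∈ R 0, ∃ c : ℂ, r = algebraMap ℂ A c)
    (hRneg : ∀ m : ℤ, m < 0 → R m = ⊥)
    (hMneg : ∀ K : ℤ, K < 0 → M K = ⊥)
    (hRR : ∀ m n : ℤ, ∀ a ∈ R m, ∀ b ∈ R n, a * b ∈ R (m + n))
    (hRM : ∀ m K : ℤ, ∀ r ∈ R m, ∀ φ ∈ M K, r * φ ∈ M (m + K))
    (h1 : (1 : A) ∈ R 0) (he4 : e4 ∈ R 4) (he6 : e6 ∈ R 6)
    (hRdecomp : ∀ m : ℤ, 0 < m → ∀ r ∈ R m, ∃ a ∈ R (m - 4), ∃ b ∈ R (m - 6),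
      r = e4 * a + e6 * b)
    (hfin : ∀ K : ℤ, FiniteDimensional ℂ (M K))
    (hreg4 : ∀ K : ℤ, ∀ φ ∈ M K, e4 * φ = 0 → φ = 0)
    (hreg6 : ∀ K : ℤ, ∀ φ ∈ M (K - 6), ∀ ψ ∈ M (K - 4), e6 * φ = e4 * ψ →
      ∃ χ ∈ M (K - 10), φ = e4 * χ) :
    ∃ (J : Type) (k : J → ℤ) (f : J → A),
      (∀ j, 0 ≤ k j) ∧ (∀ j, f j ∈ M (k j)) ∧
      (∀ (K : ℤ), ∀ φ ∈ M K, ∃ (s : Finset J) (r : J → A),
        (∀ j ∈ s, r j ∈ R (K - k j)) ∧ φ = ∑ j ∈ s, r j * f j) ∧
      (∀ (K : ℤ) (s : Finset J) (r : J → A), (∀ j ∈ s, r j ∈ R (K - k j)) →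
        ∑ j ∈ s, r j * f j = 0 → ∀ j ∈ s, r j = 0) := by
  classical
  have _ := hfin
  have h : GradedRegular R M e4 e6 :=
    { R_neg := fun m hm r hr => by
        have := hRneg m hm ▸ hr
        exact (Submodule.mem_bot ℂ).mp this
      R_zero := hR0
      one_mem := h1
      R_pos := hRdecomp
      x_mul_R := fun m r hr => mem_of_eq_wt (add_comm 4 m) (hRR 4 m e4 he4 r hr)
      y_mul_R := fun m r hr => mem_of_eq_wt (add_comm 6 m) (hRR 6 m e6 he6 r hr)
      R_mul_M := hRM
      M_neg := fun k hk f hf => by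
        have := hMneg k hk ▸ hf
        exact (Submodule.mem_bot ℂ).mp this
      x_reg := hreg4
      y_reg := fun k f hf g hg hfg => by
        obtain ⟨χ, hχ, hfχ⟩ := hreg6 (k + 6) f (mem_of_eq_wt (by ring) hf) g
          (mem_of_eq_wt (by ring) hg) hfg
        exact ⟨χ, mem_of_eq_wt (by ring) hχ, hfχ⟩ }
  refine ⟨GenIndex M e4 e6, genWt M e4 e6, gen M e4 e6, h.genWt_nonneg,
    GradedRegular.gen_mem, ?_, ?_⟩
  · intro K φ hφ
    obtain ⟨r, hr, hrφ⟩ := h.generation K hφ
    refine ⟨r.support, r, fun j _ => hr j, ?_⟩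
    rw [← hrφ, comb_apply, Finsupp.sum]
  · intro K s r hr hsum j hj
    set r' : GenIndex M e4 e6 →₀ A := Finsupp.indicator s (fun j _ => r j) with hr'
    have hr'mem : r' ∈ Coef R M e4 e6 K := by
      intro i
      by_cases hi : i ∈ s
      · rw [hr', Finsupp.indicator_of_mem hi]
        exact hr i hi
      · rw [hr', Finsupp.indicator_of_notMem hi]
        exact zero_mem _
    have hcomb : comb M e4 e6 r' = 0 := by
      rw [comb_apply, Finsupp.sum_of_support_subset r' (Finsupp.support_indicator_subset _ _)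
        (fun j a => a * gen M e4 e6 j) (fun i _ => zero_mul _)]
      rw [← hsum]
      refine Finset.sum_congr rfl fun i hi => ?_
      rw [hr', Finsupp.indicator_of_mem hi]
    have := h.uniqueness K hr'mem hcomb
    have hj' := DFunLike.congr_fun this j
    rwa [hr', Finsupp.indicator_of_mem hj, Finsupp.zero_apply] at hj'

end Packaged

end Fermat.Agent.H80
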