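import Mathlib.Analysis.Complex.RemovableSingularity
import Mathlib.Analysis.Complex.UpperHalfPlane.Manifold

/-!
# Holomorphic division by a function with simple zeros (P-DIM subtask DIM-9)

If `f`, `P` are holomorphic on the upper half plane, every zero of `P` is simple, and `f`
vanishes at every zero of `P`, then `f = P * g` with `g` holomorphic.
-/

set_option autoImplicit false

open UpperHalfPlane Filter Topology
open scoped Manifold

namespace Fermat.Agent.H80

/-- Local version on an open subset of `ℂ`: if `F` and `Q` are differentiable on the open set `U`,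
`F` vanishes at the zeros of `Q` in `U` and these zeros are simple, then `F = Q * G` on `U` for a
function `G` differentiable on `U`. -/
theorem exists_differentiableOn_quotient {U : Set ℂ} (hU : IsOpen U) {F Q : ℂ → ℂ}
    (hF : DifferentiableOn ℂ F U) (hQ : DifferentiableOn ℂ Q U)
    (hsimple : ∀ z ∈ U, Q z = 0 → deriv Q z ≠ 0)
    (hvanish : ∀ z ∈ U, Q z = 0 → F z = 0) :
    ∃ G : ℂ → ℂ, DifferentiableOn ℂ G U ∧ ∀ z ∈ U, F z = Q z * G z := by
  classical
  refine ⟨fun z => if Q z = 0 then deriv F z / deriv Q z else F z / Q z, ?_, ?_⟩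
  · intro z₀ hz₀
    refine DifferentiableAt.differentiableWithinAt ?_
    have hUn : U ∈ 𝓝 z₀ := hU.mem_nhds hz₀
    by_cases h0 : Q z₀ = 0
    · -- simple zero
      have hF0 : F z₀ = 0 := hvanish z₀ hz₀ h0
      have hdF : DifferentiableAt ℂ (dslope F z₀) z₀ :=
        ((Complex.differentiableOn_dslope hUn).mpr hF).differentiableAt hUn
      have hdQ : DifferentiableAt ℂ (dslope Q z₀) z₀ :=
        ((Complex.differentiableOn_dslope hUn).mpr hQ).differentiableAt hUn
      have hne : dslope Q z₀ z₀ ≠ 0 := by
        rw [dslope_same]; exact hsimple z₀ hz₀ h0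
      have hev : ∀ᶠ z in 𝓝 z₀, dslope Q z₀ z ≠ 0 :=
        hdQ.continuousAt.eventually_ne hne
      have hquot : DifferentiableAt ℂ (fun z => dslope F z₀ z / dslope Q z₀ z) z₀ :=
        hdF.div hdQ hne
      refine hquot.congr_of_eventuallyEq ?_
      filter_upwards [hev] with z hz
      by_cases hzz : z = z₀
      · subst hzz
        simp only [h0, if_true, dslope_same]
      · have hQz : Q z = (z - z₀) * dslope Q z₀ z := by
          have := sub_smul_dslope Q z₀ z
          simp only [smul_eq_mul, h0, sub_zero] at this
          exact this.symm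
        have hFz : F z = (z - z₀) * dslope F z₀ z := by
          have := sub_smul_dslope F z₀ z
          simp only [smul_eq_mul, hF0, sub_zero] at this
          exact this.symm
        have hsub : z - z₀ ≠ 0 := sub_ne_zero.mpr hzz
        have hQne : Q z ≠ 0 := by
          rw [hQz]; exact mul_ne_zero hsub hz
        simp only [hQne, if_false]
        rw [hFz, hQz, mul_div_mul_left _ _ hsub]
    · -- `Q z₀ ≠ 0`
      have hQc : ContinuousAt Q z₀ := (hQ.differentiableAt hUn).continuousAt
      have hev : ∀ᶠ z in 𝓝 z₀, Q z ≠ 0 := hQc.eventually_ne h0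
      have hquot : DifferentiableAt ℂ (fun z => F z / Q z) z₀ :=
        (hF.differentiableAt hUn).div (hQ.differentiableAt hUn) h0
      refine hquot.congr_of_eventuallyEq ?_
      filter_upwards [hev] with z hz
      simp only [hz, if_false]
  · intro z hz
    by_cases h0 : Q z = 0
    · simp only [h0, zero_mul]
      exact hvanish z hz h0
    · simp only [h0, if_false]
      field_simp

/-- **DIM-9.** Holomorphic division on the upper half plane by a function with simple zeros. -/
theorem exists_mdiff_quotient {f P : ℍ → ℂ} (hf : MDiff f) (hP : MDiff P)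
    (hsimple : ∀ z : ℍ, P z = 0 → deriv (P ∘ ofComplex) z ≠ 0)
    (hvanish : ∀ z : ℍ, P z = 0 → f z = 0) :
    ∃ g : ℍ → ℂ, MDiff g ∧ ∀ z, f z = P z * g z := by
  have hF := UpperHalfPlane.mdifferentiable_iff.mp hf
  have hQ := UpperHalfPlane.mdifferentiable_iff.mp hP
  obtain ⟨G, hG, hGeq⟩ := exists_differentiableOn_quotient isOpen_upperHalfPlaneSet hF hQ
    (fun z hz h0 => by
      have h := hsimple ⟨z, hz⟩ (by simpa [Function.comp_apply, ofComplex_apply_of_im_pos hz] using h0)
      simpa using h)
    (fun z hz h0 => by
      have h := hvanish ⟨z, hz⟩ (by simpa [Function.comp_apply, ofComplex_apply_of_im_pos hz] using h0)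
      simpa [Function.comp_apply, ofComplex_apply_of_im_pos hz] using h)
  refine ⟨fun z => G z, ?_, ?_⟩
  · rw [UpperHalfPlane.mdifferentiable_iff]
    refine hG.congr ?_
    intro z hz
    simp [Function.comp_apply, ofComplex_apply_of_im_pos hz]
  · intro z
    have h := hGeq z z.im_pos
    simpa [Function.comp_apply] using h

end Fermat.Agent.H80
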